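import Mathlib

/-!
# RIBET / S40, piece W-SS = ELOC-ss (helper187), part 1: valuation lemmas (Mathlib only)

`K` a field with a valuation `v`.

* `val_coeff_zero_eq_of_root` : two-term Newton polygon: if `f x = 0` and the term of index `n`
  strictly dominates all terms of index `0 < j < n`, then `v (f_0) = v (f_n x ^ n)`;
* `val_coeff_prod_lt` : for `g = ∏ (X - a)` with all `1 < v a`: `g_0 ≠ 0` and `v (g_j) < v (g_0)`
  for all `j > 0`;
* `intCast_dvd_of_val_lt_one` : an integer of valuation `< 1` is divisible by `p` (if `v p < 1`);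
* `val_root_of_all_roots_large` : **single slope**.  `f ∈ ℤ[X]` of degree `n ≥ 1` with leading
  coefficient `p`, `v p < 1`.  If all roots of `f` in `K` (algebraically closed) have valuation
  `> 1`, then every root `x` satisfies `v p * v x ^ n = 1`.
-/

set_option autoImplicit false

open Polynomial

namespace Fermat.Agent.Ribet.H187

variable {K : Type*} [Field K] {Γ₀ : Type*} [LinearOrderedCommGroupWithZero Γ₀]
  (v : Valuation K Γ₀)

/-- Two-term lemma: if `f x = 0` and the term of index `n` strictly dominates the terms of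
index `0 < j < n`, then `v (f.coeff 0) = v (f.coeff n * x ^ n)`. -/
theorem val_coeff_zero_eq_of_root (f : K[X]) (x : K) (n : ℕ) (hn : 0 < n)
    (hdeg : f.natDegree ≤ n) (hx : f.eval x = 0) (hn0 : f.coeff n * x ^ n ≠ 0)
    (h : ∀ j, 0 < j → j < n → v (f.coeff j * x ^ j) < v (f.coeff n * x ^ n)) :
    v (f.coeff 0) = v (f.coeff n * x ^ n) := by
  obtain ⟨n', rfl⟩ : ∃ n', n = n' + 1 := ⟨n - 1, by omega⟩
  rw [eval_eq_sum_range' (Nat.lt_succ_of_le hdeg), Finset.sum_range_succ,
    Finset.sum_range_succ'] at hx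
  have hlt : v (∑ j ∈ Finset.range n', f.coeff (j + 1) * x ^ (j + 1)) <
      v (f.coeff (n' + 1) * x ^ (n' + 1)) := by
    apply Valuation.map_sum_lt v
    · exact (Valuation.ne_zero_iff v).mpr hn0
    · intro j hj
      rw [Finset.mem_range] at hj
      exact h (j + 1) (by omega) (by omega)
  have h1 := Valuation.map_add_eq_of_lt_left v hlt
  have h2 : f.coeff 0 = -(f.coeff (n' + 1) * x ^ (n' + 1) +
      ∑ j ∈ Finset.range n', f.coeff (j + 1) * x ^ (j + 1)) := by
    have : f.coeff 0 * x ^ 0 = f.coeff 0 := by simp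
    rw [this] at hx
    linear_combination hx
  rw [h2, Valuation.map_neg]
  exact h1

/-- For `g = ∏ (X - a)` with all `1 < v a`: the constant coefficient is nonzero and strictly
dominates all other coefficients. -/
theorem val_coeff_prod_lt (s : Multiset K) (hs : ∀ a ∈ s, 1 < v a) :
    (s.map (fun a => X - C a)).prod.coeff 0 ≠ 0 ∧
      ∀ j, 0 < j → v ((s.map (fun a => X - C a)).prod.coeff j) <
        v ((s.map (fun a => X - C a)).prod.coeff 0) := by
  induction s using Multiset.induction_on with
  | empty =>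
    refine ⟨by simp, fun j hj => ?_⟩
    simp only [Multiset.map_zero, Multiset.prod_zero, coeff_one, if_neg hj.ne', map_zero,
      if_true, map_one]
    exact zero_lt_one
  | cons a t ih =>
    have ha : 1 < v a := hs a (Multiset.mem_cons_self a t)
    have ha0 : a ≠ 0 := by
      rintro rfl
      rw [map_zero] at ha
      exact not_lt_zero ha
    obtain ⟨h0, hj⟩ := ih (fun b hb => hs b (Multiset.mem_cons_of_mem hb))
    set g := (t.map (fun a => X - C a)).prod with hg
    have hprod : ((a ::ₘ t).map (fun a => X - C a)).prod = (X - C a) * g := by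
      rw [Multiset.map_cons, Multiset.prod_cons]
    rw [hprod]
    have hc0 : ((X - C a) * g).coeff 0 = -a * g.coeff 0 := by
      rw [mul_coeff_zero]
      simp
    have hcs : ∀ i, ((X - C a) * g).coeff (i + 1) = g.coeff i - a * g.coeff (i + 1) := by
      intro i
      rw [sub_mul, coeff_sub, coeff_X_mul, coeff_C_mul]
    have hvg0 : 0 < v (g.coeff 0) := zero_lt_iff.mpr ((Valuation.ne_zero_iff v).mpr h0)
    have hva0 : 0 < v a := lt_trans zero_lt_one ha
    refine ⟨?_, ?_⟩
    · rw [hc0]
      exact mul_ne_zero (neg_ne_zero.mpr ha0) h0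
    · intro j hj0
      obtain ⟨i, rfl⟩ : ∃ i, j = i + 1 := ⟨j - 1, by omega⟩
      rw [hcs, hc0, map_mul, Valuation.map_neg]
      have h1 : v (g.coeff i) < v a * v (g.coeff 0) := by
        have hle : v (g.coeff i) ≤ v (g.coeff 0) := by
          rcases Nat.eq_zero_or_pos i with rfl | hi
          · exact le_rfl
          · exact (hj i hi).le
        calc v (g.coeff i) ≤ v (g.coeff 0) := hle
          _ = 1 * v (g.coeff 0) := (one_mul _).symm
          _ < v a * v (g.coeff 0) := mul_lt_mul_of_pos_right ha hvg0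
      have h2 : v (a * g.coeff (i + 1)) < v a * v (g.coeff 0) := by
        rw [map_mul]
        exact mul_lt_mul_of_pos_left (hj (i + 1) (Nat.succ_pos i)) hva0
      exact lt_of_le_of_lt (Valuation.map_sub v _ _) (max_lt h1 h2)

/-- Integers have valuation `≤ 1`. -/
theorem val_intCast_le_one (c : ℤ) : v (c : K) ≤ 1 :=
  (Valuation.mem_integer_iff v _).mp (intCast_mem v.integer c)

/-- An integer of valuation `< 1` is divisible by `p`, if `v p < 1`. -/
theorem intCast_dvd_of_val_lt_one {p : ℕ} (hp : p.Prime) (hpv : v (p : K) < 1) (c : ℤ)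
    (hc : v (c : K) < 1) : (p : ℤ) ∣ c := by
  by_contra hnd
  have hcop : IsCoprime (p : ℤ) c :=
    (Nat.prime_iff_prime_int.mp hp).irreducible.coprime_iff_not_dvd.mpr hnd
  obtain ⟨a, b, hab⟩ := hcop
  have h1 : ((a : K) * (p : K) + (b : K) * (c : K)) = 1 := by
    have := congrArg (fun z : ℤ => (z : K)) hab
    simpa using this
  have h2 : v ((a : K) * (p : K)) < 1 := by
    rw [map_mul]
    exact mul_lt_of_le_one_of_lt (val_intCast_le_one v a) hpv
  have h3 : v ((b : K) * (c : K)) < 1 := by
    rw [map_mul]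
    exact mul_lt_of_le_one_of_lt (val_intCast_le_one v b) hc
  have h4 := lt_of_le_of_lt (Valuation.map_add v _ _) (max_lt h2 h3)
  rw [h1, map_one] at h4
  exact lt_irrefl _ h4

/-- An integer of valuation `< 1` has valuation `≤ v p`. -/
theorem val_intCast_le_of_lt_one {p : ℕ} (hp : p.Prime) (hpv : v (p : K) < 1) (c : ℤ)
    (hc : v (c : K) < 1) : v (c : K) ≤ v (p : K) := by
  obtain ⟨d, rfl⟩ := intCast_dvd_of_val_lt_one v hp hpv c hc
  push_cast
  rw [map_mul]
  exact mul_le_of_le_one_right zero_le (val_intCast_le_one v d)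

/-- **Single slope.**  Let `f ∈ ℤ[X]` have degree `n ≥ 1` and leading coefficient `p`, where
`v p < 1`.  If all roots of `f` in the algebraically closed field `K` have valuation `> 1`, then
`v p * v x ^ n = 1` for every root `x`. -/
theorem val_root_of_all_roots_large [IsAlgClosed K] {p : ℕ} (hp : p.Prime) (hpK : (p : K) ≠ 0)
    (hpv : v (p : K) < 1) (f : ℤ[X]) (n : ℕ) (hn : 0 < n) (hdeg : f.natDegree ≤ n)
    (hlead : f.coeff n = p)
    (hroots : ∀ x : K, (f.map (Int.castRingHom K)).eval x = 0 → 1 < v x)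
    (x : K) (hx : (f.map (Int.castRingHom K)).eval x = 0) :
    v (p : K) * v x ^ n = 1 := by
  set g := f.map (Int.castRingHom K) with hg
  have hcoeff : ∀ j, g.coeff j = ((f.coeff j : ℤ) : K) := fun j => by
    rw [hg, coeff_map]; rfl
  have hgn : g.coeff n = (p : K) := by rw [hcoeff, hlead]; simp
  have hgdeg : g.natDegree ≤ n := le_trans (natDegree_map_le) hdeg
  have hgnat : g.natDegree = n :=
    natDegree_eq_of_le_of_coeff_ne_zero hgdeg (by rw [hgn]; exact hpK)
  have hlc : g.leadingCoeff = (p : K) := by rw [leadingCoeff, hgnat, hgn]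
  have hsplit : g = C (p : K) * (g.roots.map (fun a => X - C a)).prod := by
    have := (IsAlgClosed.splits g).eq_prod_roots
    rw [hlc] at this
    exact this
  have hrt : ∀ a ∈ g.roots, 1 < v a := fun a ha => hroots a ((mem_roots'.mp ha).2)
  obtain ⟨h0, hj⟩ := val_coeff_prod_lt v g.roots hrt
  set h := (g.roots.map (fun a => X - C a)).prod with hh
  have hgh : ∀ j, g.coeff j = (p : K) * h.coeff j := fun j => by
    conv_lhs => rw [hsplit]
    rw [coeff_C_mul]
  have hvp0 : 0 < v (p : K) := zero_lt_iff.mpr ((Valuation.ne_zero_iff v).mpr hpK)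
  -- non-constant coefficients have valuation `≤ v p`
  have hle1 : ∀ j, v (g.coeff j) ≤ 1 := fun j => by
    rw [hcoeff]; exact val_intCast_le_one v _
  have hlt0 : ∀ j, 0 < j → v (g.coeff j) < v (g.coeff 0) := fun j hj0 => by
    rw [hgh j, hgh 0, map_mul, map_mul]
    exact mul_lt_mul_of_pos_left (hj j hj0) hvp0
  have hlep : ∀ j, 0 < j → v (g.coeff j) ≤ v (p : K) := fun j hj0 => by
    have h1 : v (g.coeff j) < 1 := lt_of_lt_of_le (hlt0 j hj0) (hle1 0)
    rw [hcoeff] at h1 ⊢
    exact val_intCast_le_of_lt_one v hp hpv _ h1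
  have hvx : 1 < v x := hroots x hx
  have hvx0 : 0 < v x := lt_trans zero_lt_one hvx
  have hx0 : x ≠ 0 := (Valuation.ne_zero_iff v).mp hvx0.ne'
  have hdom : ∀ j, 0 < j → j < n → v (g.coeff j * x ^ j) < v (g.coeff n * x ^ n) := by
    intro j hj0 hjn
    rw [map_mul, map_mul, hgn, map_pow, map_pow]
    calc v (g.coeff j) * v x ^ j ≤ v (p : K) * v x ^ j :=
          mul_le_mul_of_nonneg_right (hlep j hj0) zero_le
      _ < v (p : K) * v x ^ n :=
          mul_lt_mul_of_pos_left (pow_lt_pow_right₀ hvx hjn) hvp0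
  have hkey := val_coeff_zero_eq_of_root v g x n hn hgdeg hx
    (by rw [hgn]; exact mul_ne_zero hpK (pow_ne_zero _ hx0)) hdom
  rw [hgn, map_mul, map_pow] at hkey
  rw [← hkey]
  rcases lt_or_eq_of_le (hle1 0) with hlt | heq
  · exfalso
    have h1 : v (g.coeff 0) ≤ v (p : K) := by
      rw [hcoeff] at hlt ⊢
      exact val_intCast_le_of_lt_one v hp hpv _ hlt
    have h2 : v (p : K) < v (p : K) * v x ^ n := by
      calc v (p : K) = v (p : K) * 1 := (mul_one _).symm
        _ < v (p : K) * v x ^ n := mul_lt_mul_of_pos_left (one_lt_pow₀ hvx hn.ne') hvp0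
    rw [← hkey] at h2
    exact lt_irrefl _ (lt_of_le_of_lt h1 h2)
  · exact heq

end Fermat.Agent.Ribet.H187
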