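import Fermat.Agent.S14.H937.LocalI
import Fermat.Agent.A2.H708.Tame
import Fermat.Agent.Ribet.H187.ELocVal

/-!
# RIBET / S40, piece W-SS = ELOC-ss (helper187), part 2: an inertia element with tame character
of exact order `2` on `√p`

`A` a valuation subring of `ℚ̄` over the prime `p`, `v = A.valuation`.

* `val_ratCast_eq_zpow` : `v (ℚˣ) ⊆ (v p) ^ ℤ`;
* `exists_inertia_neg_sqrt` : there are `σ` in the inertia group of `A` and `b` with `b ^ 2 = p`,
  `σ b = - b`  (Kummer theory for `√p`, from `Fermat.Agent.S14.H937.localI_general`);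
* `not_val_sq_mul_apply_sub_lt` : for such a `σ` (`p = 2 m + 1` odd) and every `x` with
  `v p * v x ^ (2 m ^ 2 + 2 m) = 1` and every integer `k` prime to `p`:
  `¬ v (k ^ 2 * σ x - x) < v x`, i.e. `σ x / x` is not congruent to `k ^ (-2)` modulo the maximal
  ideal.  In particular (`k = 1`) `σ x ≠ x`.
-/

set_option autoImplicit false

namespace Fermat.Agent.Ribet.H187

local notation "Qb" => AlgebraicClosure ℚ

theorem val_natCast_lt_one (A : ValuationSubring Qb) {p : ℕ} (hA : A.LiesOverPrime p) :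
    A.valuation (p : Qb) < 1 :=
  A.mem_nonunits_iff.mp hA

/-- Nonzero integers have valuation a power of `v p`. -/
theorem val_intCast_eq_pow (A : ValuationSubring Qb) {p : ℕ} (hp : p.Prime)
    (hA : A.LiesOverPrime p) (c : ℤ) (hc : c ≠ 0) :
    ∃ k : ℕ, A.valuation ((c : ℤ) : Qb) = A.valuation (p : Qb) ^ k := by
  have hpv := val_natCast_lt_one A hA
  induction' hn : c.natAbs using Nat.strong_induction_on with n ih generalizing c
  rcases lt_or_eq_of_le (val_intCast_le_one A.valuation c) with hlt | heq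
  · obtain ⟨d, rfl⟩ := intCast_dvd_of_val_lt_one A.valuation hp hpv c hlt
    have hd0 : d ≠ 0 := by
      rintro rfl
      simp at hc
    have hlt' : d.natAbs < n := by
      rw [← hn, Int.natAbs_mul, Int.natAbs_natCast]
      have h1 : 0 < d.natAbs := Int.natAbs_pos.mpr hd0
      have h2 : 1 < p := hp.one_lt
      nlinarith
    obtain ⟨k, hk⟩ := ih d.natAbs hlt' d hd0 rfl
    refine ⟨k + 1, ?_⟩
    push_cast
    rw [map_mul, hk, pow_succ']
  · exact ⟨0, by rw [heq, pow_zero]⟩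

/-- Nonzero rationals have valuation an integral power of `v p`. -/
theorem val_ratCast_eq_zpow (A : ValuationSubring Qb) {p : ℕ} (hp : p.Prime)
    (hA : A.LiesOverPrime p) (q : ℚ) (hq : q ≠ 0) :
    ∃ k : ℤ, A.valuation (algebraMap ℚ Qb q) = A.valuation (p : Qb) ^ k := by
  have hnum : q.num ≠ 0 := Rat.num_ne_zero.mpr hq
  have hden : (q.den : ℤ) ≠ 0 := by exact_mod_cast q.den_ne_zero
  obtain ⟨k₁, hk₁⟩ := val_intCast_eq_pow A hp hA q.num hnum
  obtain ⟨k₂, hk₂⟩ := val_intCast_eq_pow A hp hA (q.den : ℤ) hden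
  refine ⟨(k₁ : ℤ) - (k₂ : ℤ), ?_⟩
  have hpQ : (p : Qb) ≠ 0 := Nat.cast_ne_zero.mpr hp.ne_zero
  have hvp0 : A.valuation (p : Qb) ≠ 0 := (Valuation.ne_zero_iff _).mpr hpQ
  have hq' : algebraMap ℚ Qb q = ((q.num : ℤ) : Qb) / (((q.den : ℤ) : ℤ) : Qb) := by
    conv_lhs => rw [← Rat.num_div_den q]
    rw [map_div₀]
    simp
  rw [hq', map_div₀, hk₁, hk₂, zpow_sub₀ hvp0, zpow_natCast, zpow_natCast]

/-- **Kummer theory for `√p`**: some element of the inertia group of `A` (over `p`) maps a square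
root of `p` to its negative. -/
theorem exists_inertia_neg_sqrt (A : ValuationSubring Qb) {p : ℕ} (hp : p.Prime)
    (hA : A.LiesOverPrime p) :
    ∃ σ ∈ A.inertiaSubgroupIn ℚ, ∃ b : Qb, b ^ 2 = (p : Qb) ∧ σ b = -b := by
  obtain ⟨b, hb⟩ := IsAlgClosed.exists_pow_nat_eq (p : Qb) (n := 2) (by norm_num)
  have hpQ : (p : Qb) ≠ 0 := Nat.cast_ne_zero.mpr hp.ne_zero
  have hb0 : b ≠ 0 := by
    rintro rfl
    rw [zero_pow two_ne_zero] at hb
    exact hpQ hb.symm
  by_contra hcon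
  have hfix : ∀ σ ∈ A.inertiaSubgroupIn ℚ,
      (∀ x ∈ (⊥ : IntermediateField ℚ Qb), σ x = x) → σ b = b := by
    intro σ hσ _
    have h1 : (σ b) ^ 2 = b ^ 2 := by rw [← map_pow, hb, map_natCast]
    rcases sq_eq_sq_iff_eq_or_eq_neg.mp h1 with h | h
    · exact h
    · exact absurd ⟨σ, hσ, b, hb, h⟩ hcon
  have hprim : IsPrimitiveRoot (-1 : Qb) 2 := IsPrimitiveRoot.neg_one 0 (by norm_num)
  have hbK : b ^ 2 ∈ (⊥ : IntermediateField ℚ Qb) := by
    rw [hb]
    exact natCast_mem _ p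
  obtain ⟨c, hc, hc0, hvc⟩ := Fermat.Agent.S14.H937.localI_general ⊥ 2 (by norm_num) (-1) hprim
    (neg_mem (one_mem _)) A b hb0 hbK hfix
  obtain ⟨q, rfl⟩ := IntermediateField.mem_bot.mp hc
  have hq0 : q ≠ 0 := by
    rintro rfl
    simp at hc0
  obtain ⟨k, hk⟩ := val_ratCast_eq_zpow A hp hA q hq0
  have hpv := val_natCast_lt_one A hA
  have hvp0 : 0 < A.valuation (p : Qb) := zero_lt_iff.mpr ((Valuation.ne_zero_iff _).mpr hpQ)
  have e1 : A.valuation b ^ 2 = A.valuation (p : Qb) := by rw [← map_pow, hb]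
  have e2 : A.valuation b = A.valuation (p : Qb) ^ k := hvc.trans hk
  have h2 : A.valuation (p : Qb) ^ (2 * k) = A.valuation (p : Qb) ^ (1 : ℤ) := by
    rw [zpow_one]
    conv_rhs => rw [← e1, e2]
    rw [← zpow_natCast, ← zpow_mul]
    congr 1
    push_cast
    ring
  have h3 := zpow_right_injective₀ hvp0 hpv.ne h2
  omega

/-- `v (z - 1) < 1 → v (z ^ n - 1) < 1`. -/
theorem val_pow_sub_one_lt {K : Type*} [Field K] {Γ₀ : Type*} [LinearOrderedCommGroupWithZero Γ₀]
    (v : Valuation K Γ₀) {z : K} (hz : v (z - 1) < 1) (n : ℕ) : v (z ^ n - 1) < 1 := by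
  have hz1 : v z ≤ 1 := by
    have : z = (z - 1) + 1 := by ring
    rw [this]
    exact le_trans (Valuation.map_add v _ _) (max_le hz.le (by rw [map_one]))
  induction n with
  | zero => simp
  | succ n ih =>
    have : z ^ (n + 1) - 1 = z ^ n * (z - 1) + (z ^ n - 1) := by ring
    rw [this]
    refine lt_of_le_of_lt (Valuation.map_add v _ _) (max_lt ?_ ih)
    rw [map_mul, map_pow]
    exact mul_lt_of_le_one_of_lt (pow_le_one' hz1 n) hz

/-- The tame character of an inertia element `σ` with `σ √p = - √p` at elements `x` with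
`v p * v x ^ (2 m ^ 2 + 2 m) = 1` (`p = 2 m + 1`) is not of the form `k ^ (-2)`, `k ∈ 𝔽_pˣ`. -/
theorem not_val_sq_mul_apply_sub_lt (A : ValuationSubring Qb) {p : ℕ} (hp : p.Prime)
    (hp2 : p ≠ 2) (hA : A.LiesOverPrime p) (m : ℕ) (hm : p = 2 * m + 1)
    {σ : Qb ≃ₐ[ℚ] Qb} (hσ : σ ∈ A.inertiaSubgroupIn ℚ) {b : Qb} (hb : b ^ 2 = (p : Qb))
    (hσb : σ b = -b) (x : Qb)
    (hx : A.valuation (p : Qb) * A.valuation x ^ (2 * m ^ 2 + 2 * m) = 1)
    (k : ℤ) (hk : ¬ (p : ℤ) ∣ k) :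
    ¬ A.valuation ((k : Qb) ^ 2 * σ x - x) < A.valuation x := by
  intro hlt
  have hpv := val_natCast_lt_one A hA
  have hpQ : (p : Qb) ≠ 0 := Nat.cast_ne_zero.mpr hp.ne_zero
  have hm1 : 1 ≤ m := by
    have := hp.two_le
    omega
  have hx0 : x ≠ 0 := by
    rintro rfl
    have : 2 * m ^ 2 + 2 * m ≠ 0 := by positivity
    rw [map_zero, zero_pow this, mul_zero] at hx
    exact zero_ne_one hx
  have hvx0 : A.valuation x ≠ 0 := (Valuation.ne_zero_iff _).mpr hx0
  have : Algebra.IsAlgebraic ℚ Qb := AlgebraicClosure.isAlgebraic ℚ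
  have hσD := Fermat.Agent.A2.H708.mem_decomposition_of_mem_inertiaIn A hσ
  have hvσ : A.valuation (σ x) = A.valuation x :=
    Fermat.Agent.A2.H708.valuation_apply_of_mem_decomposition A hσD x
  set r := σ x / x with hr
  have hvr : A.valuation r = 1 := by
    rw [hr, map_div₀, hvσ, div_self hvx0]
  have hσx : σ x = r * x := by
    rw [hr]; field_simp
  -- `k² r ≡ 1`
  have ha : A.valuation ((k : Qb) ^ 2 * r - 1) < 1 := by
    have h1 : (k : Qb) ^ 2 * r - 1 = ((k : Qb) ^ 2 * σ x - x) / x := by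
      rw [hr]; field_simp
    rw [h1, map_div₀]
    exact (div_lt_one₀ (zero_lt_iff.mpr hvx0)).mpr hlt
  have ham := val_pow_sub_one_lt A.valuation ha m
  -- Fermat's little theorem
  have hfer : A.valuation ((k : Qb) ^ (2 * m) - 1) < 1 := by
    have hcop : IsCoprime k (p : ℤ) :=
      ((Nat.prime_iff_prime_int.mp hp).irreducible.coprime_iff_not_dvd.mpr hk).symm
    have h1 := Int.ModEq.pow_card_sub_one_eq_one hp hcop
    have h2 : (p : ℤ) ∣ k ^ (2 * m) - 1 := by
      have h3 : p - 1 = 2 * m := by omega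
      rw [h3] at h1
      exact (Int.modEq_iff_dvd.mp h1.symm)
    obtain ⟨t, ht⟩ := h2
    have h4 : (k : Qb) ^ (2 * m) - 1 = (t : Qb) * (p : Qb) := by
      have h5 : (k : Qb) ^ (2 * m) - 1 = (p : Qb) * (t : Qb) := by
        have := congrArg (fun z : ℤ => (z : Qb)) ht
        simpa using this
      rw [h5, mul_comm]
    rw [h4, map_mul]
    exact mul_lt_of_le_one_of_lt (val_intCast_le_one A.valuation t) hpv
  -- `r ^ m ≡ 1`
  have hrm : A.valuation (r ^ m - 1) < 1 := by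
    have h1 : r ^ m - 1 = (((k : Qb) ^ 2 * r) ^ m - 1) - ((k : Qb) ^ (2 * m) - 1) * r ^ m := by
      rw [mul_pow, ← pow_mul]; ring
    rw [h1]
    refine lt_of_le_of_lt (Valuation.map_sub _ _ _) (max_lt ham ?_)
    rw [map_mul, map_pow, hvr, one_pow, mul_one]
    exact hfer
  have hrM : A.valuation (r ^ (m ^ 2 + m) - 1) < 1 := by
    have h1 := val_pow_sub_one_lt A.valuation hrm (m + 1)
    have h2 : (r ^ m) ^ (m + 1) = r ^ (m ^ 2 + m) := by
      rw [← pow_mul]; congr 1; ring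
    rwa [h2] at h1
  -- the unit `u = x ^ (m² + m) * b`
  set u := x ^ (m ^ 2 + m) * b with hu
  have hvu2 : A.valuation u ^ 2 = 1 := by
    rw [hu, map_mul, mul_pow, ← map_pow _ b, hb, map_pow, ← pow_mul, mul_comm]
    have : (m ^ 2 + m) * 2 = 2 * m ^ 2 + 2 * m := by ring
    rw [this]
    exact hx
  have hvu : A.valuation u = 1 := by
    rcases lt_trichotomy (A.valuation u) 1 with h | h | h
    · exfalso
      have := pow_lt_one₀ zero_le h two_ne_zero
      rw [hvu2] at this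
      exact lt_irrefl _ this
    · exact h
    · exfalso
      have := one_lt_pow₀ h two_ne_zero
      rw [hvu2] at this
      exact lt_irrefl _ this
  have hσu : σ u = -(r ^ (m ^ 2 + m)) * u := by
    rw [hu, map_mul, map_pow, hσb, hσx, mul_pow]; ring
  have h5 := Fermat.Agent.A2.H708.valuation_sub_lt_one_of_mem_inertiaIn A hσ hvu.le
  have h6 : A.valuation (r ^ (m ^ 2 + m) + 1) < 1 := by
    have h7 : σ u - u = -((r ^ (m ^ 2 + m) + 1) * u) := by rw [hσu]; ring
    rw [h7, Valuation.map_neg, map_mul, hvu, mul_one] at h5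
    exact h5
  have h8 : A.valuation ((2 : ℤ) : Qb) < 1 := by
    have h9 : ((2 : ℤ) : Qb) = (r ^ (m ^ 2 + m) + 1) - (r ^ (m ^ 2 + m) - 1) := by
      push_cast; ring
    rw [h9]
    exact lt_of_le_of_lt (Valuation.map_sub _ _ _) (max_lt h6 hrM)
  have h10 := intCast_dvd_of_val_lt_one A.valuation hp hpv 2 h8
  have h11 : p ∣ 2 := by exact_mod_cast h10
  exact hp2 ((Nat.prime_dvd_prime_iff_eq hp Nat.prime_two).mp h11)

/-- In particular such a `σ` does not fix any `x` with `v p * v x ^ (2 m ^ 2 + 2 m) = 1`. -/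
theorem apply_ne_self_of_val (A : ValuationSubring Qb) {p : ℕ} (hp : p.Prime)
    (hp2 : p ≠ 2) (hA : A.LiesOverPrime p) (m : ℕ) (hm : p = 2 * m + 1)
    {σ : Qb ≃ₐ[ℚ] Qb} (hσ : σ ∈ A.inertiaSubgroupIn ℚ) {b : Qb} (hb : b ^ 2 = (p : Qb))
    (hσb : σ b = -b) (x : Qb)
    (hx : A.valuation (p : Qb) * A.valuation x ^ (2 * m ^ 2 + 2 * m) = 1) :
    σ x ≠ x := by
  intro h
  have hm1 : 1 ≤ m := by
    have := hp.two_le
    omega
  have hx0 : x ≠ 0 := by
    rintro rfl
    have : 2 * m ^ 2 + 2 * m ≠ 0 := by positivity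
    rw [map_zero, zero_pow this, mul_zero] at hx
    exact zero_ne_one hx
  refine not_val_sq_mul_apply_sub_lt A hp hp2 hA m hm hσ hb hσb x hx 1 ?_ ?_
  · intro hd
    have : p ∣ 1 := by exact_mod_cast hd
    exact hp.one_lt.ne' (Nat.dvd_one.mp this)
  · rw [h]
    simp only [Int.cast_one, one_pow, one_mul, sub_self, map_zero]
    exact zero_lt_iff.mpr ((Valuation.ne_zero_iff _).mpr hx0)

end Fermat.Agent.Ribet.H187
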