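import Fermat.Agent.S13.H891.Torsion
import Fermat.Agent.S05.FG
import Fermat.Agent.S51.FiveGalois
import Fermat.Agent.Ribet.H187.ELocKummer

/-!
# RIBET / S40, piece W-SS = ELOC-ss (helper187): the supersingular local piece

`W : WeierstrassCurve ℤ`, `W.Δ ≠ 0`, `p` an odd prime, `A` a valuation subring of `ℚ̄` over `p`,
`E = (W.map (Int.castRingHom ℚ))⁄ℚ̄`.

**Supersingular hypothesis** (`hss`): every nonzero point of `E[p]` lies in the kernel of
reduction at `A`, i.e. `1 < A.valuation (x P)`.  (No good-reduction hypothesis is needed.)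

* `val_xc_of_ss` : then `v p * v (x P) ^ ((p ^ 2 - 1) / 2) = 1` for all nonzero `P ∈ E[p]`
  (with `p = 2 m + 1`, `(p ^ 2 - 1) / 2 = 2 m ^ 2 + 2 m`);
* `exists_inertia_no_eigenvector` : there is `τ` in the inertia group of `A` without eigenvector
  in `E[p]`: `τ • P ≠ a • P` for all nonzero `P ∈ E[p]` and all `a : ℤ`;
* `exists_inertia_sub_one_injective` : in particular `τ • P ≠ P`, so `τ - 1` is injective,
  hence bijective, on `E[p]`: **`E[p]` has no nonzero inertia coinvariants** (W-SS);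
* `exists_inertia_sub_one_surjective`, `eq_zero_of_inertia_invariant` : the same in surjectivity
  form on `Submodule.torsionBy ℤ E.Point p`, and in the form "every inertia-invariant additive
  map on `E[p]` is zero";
* `exists_ordinary_point_of_eigen` : contrapositive ("ordinary" dichotomy): if every element of
  the inertia group has an eigenvector in `E[p]`, some nonzero `P ∈ E[p]` has `x P ∈ A`.

The element `τ` is any inertia element with `τ √p = - √p`
(`Fermat.Agent.Ribet.H187.exists_inertia_neg_sqrt`).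
-/

set_option autoImplicit false

open WeierstrassCurve WeierstrassCurve.Affine Polynomial
open Fermat.Agent.S51.Five (xc xc_galois_smul exists_equation)
open Fermat.Agent.S13.H891 (polyW map_polyW dc_polyW torsion_iff_root)

namespace Fermat.Agent.Ribet.H187

local notation "Qb" => AlgebraicClosure ℚ

variable (W : WeierstrassCurve ℤ)

/-- The coefficients of `E = W_ℚ̄` are the integer casts of those of `W`. -/
theorem map_intCast_polyW (m : ℕ) :
    (polyW W.b₂ W.b₄ W.b₆ W.b₈ m).map (Int.castRingHom Qb) =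
      polyW ((W.map (Int.castRingHom ℚ))⁄Qb).b₂ ((W.map (Int.castRingHom ℚ))⁄Qb).b₄
        ((W.map (Int.castRingHom ℚ))⁄Qb).b₆ ((W.map (Int.castRingHom ℚ))⁄Qb).b₈ m := by
  rw [map_polyW]
  have e : ∀ c : ℤ, Int.castRingHom Qb c = algebraMap ℚ Qb (Int.castRingHom ℚ c) := fun c => by
    simp
  show _ = polyW ((W.map (Int.castRingHom ℚ)).map (algebraMap ℚ Qb)).b₂
    ((W.map (Int.castRingHom ℚ)).map (algebraMap ℚ Qb)).b₄
    ((W.map (Int.castRingHom ℚ)).map (algebraMap ℚ Qb)).b₆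
    ((W.map (Int.castRingHom ℚ)).map (algebraMap ℚ Qb)).b₈ m
  rw [WeierstrassCurve.map_b₂, WeierstrassCurve.map_b₄, WeierstrassCurve.map_b₆,
    WeierstrassCurve.map_b₈, WeierstrassCurve.map_b₂, WeierstrassCurve.map_b₄,
    WeierstrassCurve.map_b₆, WeierstrassCurve.map_b₈, e, e, e, e]

theorem isIntegralAt_baseChange (A : ValuationSubring Qb) :
    Fermat.Agent.S05.FG.IsIntegralAt A.valuation ((W.map (Int.castRingHom ℚ))⁄Qb) := by
  have e : ∀ c : ℤ, A.valuation (algebraMap ℚ Qb (Int.castRingHom ℚ c)) ≤ 1 := fun c => by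
    have : algebraMap ℚ Qb (Int.castRingHom ℚ c) = ((c : ℤ) : Qb) := by simp
    rw [this]
    exact val_intCast_le_one A.valuation c
  exact ⟨e _, e _, e _, e _, e _⟩

theorem isElliptic_baseChange (hΔ : W.Δ ≠ 0) : ((W.map (Int.castRingHom ℚ))⁄Qb).IsElliptic := by
  constructor
  rw [isUnit_iff_ne_zero]
  show ((W.map (Int.castRingHom ℚ)).map (algebraMap ℚ Qb)).Δ ≠ 0
  rw [WeierstrassCurve.map_Δ, WeierstrassCurve.map_Δ]
  apply (_root_.map_ne_zero _).mpr
  simpa using hΔ

variable {W}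

/-- Under the supersingular hypothesis, all nonzero `p`-torsion points have the same
`x`-valuation `ρ`, with `v p * ρ ^ ((p² - 1) / 2) = 1`. -/
theorem val_xc_of_ss (hΔ : W.Δ ≠ 0) {p : ℕ} (hp : p.Prime) (m : ℕ) (hm : p = 2 * m + 1)
    (A : ValuationSubring Qb) (hA : A.LiesOverPrime p)
    (hss : ∀ P : ((W.map (Int.castRingHom ℚ))⁄Qb).Point, P ≠ 0 → p • P = 0 →
      1 < A.valuation (xc P))
    (P : ((W.map (Int.castRingHom ℚ))⁄Qb).Point) (hP0 : P ≠ 0) (hPp : p • P = 0) :
    A.valuation (p : Qb) * A.valuation (xc P) ^ (2 * m ^ 2 + 2 * m) = 1 := by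
  have := isElliptic_baseChange W hΔ
  have hm1 : 1 ≤ m := by
    have := hp.two_le
    have h2 : p ≠ 1 := hp.one_lt.ne'
    omega
  have hpQ : (p : Qb) ≠ 0 := Nat.cast_ne_zero.mpr hp.ne_zero
  have hpv := val_natCast_lt_one A hA
  have hfmap := map_intCast_polyW W m
  obtain ⟨hdeg, hlead⟩ := dc_polyW W.b₂ W.b₄ W.b₆ W.b₈ m hm1
  have hroots : ∀ x : Qb, ((polyW W.b₂ W.b₄ W.b₆ W.b₈ m).map (Int.castRingHom Qb)).eval x = 0 →
      1 < A.valuation x := by
    intro x hx
    obtain ⟨y, hy⟩ := exists_equation ((W.map (Int.castRingHom ℚ))⁄Qb) x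
    have hns : ((W.map (Int.castRingHom ℚ))⁄Qb).Nonsingular x y :=
      Affine.equation_iff_nonsingular.mp hy
    have hQ : (2 * m + 1) • (Point.some x y hns) = 0 :=
      (torsion_iff_root (Point.some_ne_zero _) m).mpr (by rw [← hfmap]; exact hx)
    have := hss (Point.some x y hns) (Point.some_ne_zero _) (by rw [hm]; exact hQ)
    simpa using this
  have hxP : ((polyW W.b₂ W.b₄ W.b₆ W.b₈ m).map (Int.castRingHom Qb)).eval (xc P) = 0 := by
    rw [hfmap]
    exact (torsion_iff_root hP0 m).mp (by rw [← hm]; exact hPp)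
  exact val_root_of_all_roots_large A.valuation hp hpQ hpv _ (2 * m ^ 2 + 2 * m)
    (by positivity) hdeg (by rw [hlead, hm]) hroots (xc P) hxP

/-- **W-SS / ELOC-ss, strong form.**  Under the supersingular hypothesis some element of the
inertia group of `A` has no eigenvector in `E[p]`. -/
theorem exists_inertia_no_eigenvector (hΔ : W.Δ ≠ 0) {p : ℕ} (hp : p.Prime) (hp2 : p ≠ 2)
    (A : ValuationSubring Qb) (hA : A.LiesOverPrime p)
    (hss : ∀ P : ((W.map (Int.castRingHom ℚ))⁄Qb).Point, P ≠ 0 → p • P = 0 →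
      1 < A.valuation (xc P)) :
    ∃ τ ∈ A.inertiaSubgroupIn ℚ,
      ∀ P : ((W.map (Int.castRingHom ℚ))⁄Qb).Point, P ≠ 0 → p • P = 0 →
        ∀ a : ℤ, τ • P ≠ a • P := by
  obtain ⟨m, hm⟩ : ∃ m, p = 2 * m + 1 := by
    rcases hp.eq_two_or_odd' with h | h
    · exact absurd h hp2
    · exact h
  obtain ⟨σ, hσ, b, hb, hσb⟩ := exists_inertia_neg_sqrt A hp hA
  refine ⟨σ, hσ, ?_⟩
  intro P hP0 hPp a hPa
  have hval := val_xc_of_ss hΔ hp m hm A hA hss P hP0 hPp
  have hvx := hss P hP0 hPp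
  have hσP0 : σ • P ≠ 0 := by
    intro h
    have h1 : σ⁻¹ • (σ • P) = 0 := by
      rw [h]
      exact smul_zero (A := ((W.map (Int.castRingHom ℚ))⁄Qb).Point) σ⁻¹
    rw [inv_smul_smul] at h1
    exact hP0 h1
  -- reduce `a` modulo `p`
  set k : ℕ := (a % (p : ℤ)).toNat with hk
  have hp0 : (p : ℤ) ≠ 0 := by exact_mod_cast hp.ne_zero
  have hk1 : (k : ℤ) = a % (p : ℤ) := Int.toNat_of_nonneg (Int.emod_nonneg a hp0)
  have hkp : k < p := by
    have := Int.emod_lt_of_pos a (by exact_mod_cast hp.pos : (0 : ℤ) < (p : ℤ))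
    omega
  have haP : a • P = k • P := by
    have h1 : a = (p : ℤ) * (a / (p : ℤ)) + (k : ℤ) := by
      rw [hk1]; exact (Int.mul_ediv_add_emod a p).symm
    have h2 : ((p : ℤ) * (a / (p : ℤ))) • P = 0 := by
      rw [mul_zsmul', natCast_zsmul, hPp, zsmul_zero]
    conv_lhs => rw [h1]
    rw [add_zsmul, h2, zero_add, natCast_zsmul]
  rw [haP] at hPa
  have hk0 : k ≠ 0 := by
    rintro h0
    rw [h0, zero_nsmul] at hPa
    exact hσP0 hPa
  have hkdvd : ¬ (p : ℤ) ∣ (k : ℤ) := by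
    intro hd
    have : p ∣ k := by exact_mod_cast hd
    exact absurd (Nat.le_of_dvd (Nat.pos_of_ne_zero hk0) this) (not_le.mpr hkp)
  rcases P with _ | ⟨x, y, h⟩
  · exact hP0 rfl
  have hx0 : x ≠ 0 := by
    rintro rfl
    simp at hvx
  have hvx' : 1 < A.valuation x := hvx
  rcases (Fermat.Agent.S05.FG.good_all (isIntegralAt_baseChange W A) h hvx' k).1 with
    ⟨hk0', -⟩ | ⟨xk, yk, hnk, hkP, hxk0, hlt⟩
  · rw [hk0'] at hPa
    exact hσP0 hPa
  · have hxk : xk = σ x := by
      have h1 : xc (σ • (Point.some x y h : ((W.map (Int.castRingHom ℚ))⁄Qb).Point)) = xk := by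
        rw [hPa, hkP]; rfl
      rw [xc_galois_smul] at h1
      exact h1.symm
    have : Algebra.IsAlgebraic ℚ Qb := AlgebraicClosure.isAlgebraic ℚ
    have hσD := Fermat.Agent.A2.H708.mem_decomposition_of_mem_inertiaIn A hσ
    have hvσ : A.valuation (σ x) = A.valuation x :=
      Fermat.Agent.A2.H708.valuation_apply_of_mem_decomposition A hσD x
    have hσx0 : σ x ≠ 0 := by rw [← hxk]; exact hxk0
    have hvx0 : A.valuation x ≠ 0 := (Valuation.ne_zero_iff _).mpr hx0
    have hkey : A.valuation (((k : ℤ) : Qb) ^ 2 * σ x - x) < A.valuation x := by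
      have e1 : ((k : ℤ) : Qb) ^ 2 * σ x - x = -((xk⁻¹ - (k : Qb) ^ 2 * x⁻¹) * (σ x * x)) := by
        rw [hxk]
        push_cast
        field_simp
        ring
      rw [e1, Valuation.map_neg, map_mul, map_mul, hvσ]
      have e2 : A.valuation x = A.valuation x⁻¹ * (A.valuation x * A.valuation x) := by
        rw [map_inv₀, ← mul_assoc, inv_mul_cancel₀ hvx0, one_mul]
      conv_rhs => rw [e2]
      exact mul_lt_mul_of_pos_right hlt
        (mul_pos (zero_lt_iff.mpr hvx0) (zero_lt_iff.mpr hvx0))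
    exact not_val_sq_mul_apply_sub_lt A hp hp2 hA m hm hσ hb hσb x hval k hkdvd hkey

/-- **W-SS.**  Under the supersingular hypothesis some `τ` in the inertia group of `A` fixes no
nonzero point of `E[p]`; so `τ - 1` is injective on `E[p]` and `E[p]` has no nonzero inertia
coinvariants. -/
theorem exists_inertia_sub_one_injective (hΔ : W.Δ ≠ 0) {p : ℕ} (hp : p.Prime) (hp2 : p ≠ 2)
    (A : ValuationSubring Qb) (hA : A.LiesOverPrime p)
    (hss : ∀ P : ((W.map (Int.castRingHom ℚ))⁄Qb).Point, P ≠ 0 → p • P = 0 →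
      1 < A.valuation (xc P)) :
    ∃ τ ∈ A.inertiaSubgroupIn ℚ,
      ∀ P : ((W.map (Int.castRingHom ℚ))⁄Qb).Point, p • P = 0 → τ • P = P → P = 0 := by
  obtain ⟨τ, hτ, h⟩ := exists_inertia_no_eigenvector hΔ hp hp2 A hA hss
  refine ⟨τ, hτ, fun P hPp hfix => ?_⟩
  by_contra hP0
  exact h P hP0 hPp 1 (by rw [one_smul]; exact hfix)

/-- Contrapositive ("ordinary" branch of the dichotomy): if every element of the inertia group of
`A` has an eigenvector in `E[p]`, then some nonzero point of `E[p]` has `A`-integral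
`x`-coordinate (does not reduce to the origin). -/
theorem exists_ordinary_point_of_eigen (hΔ : W.Δ ≠ 0) {p : ℕ} (hp : p.Prime) (hp2 : p ≠ 2)
    (A : ValuationSubring Qb) (hA : A.LiesOverPrime p)
    (heig : ∀ τ ∈ A.inertiaSubgroupIn ℚ,
      ∃ P : ((W.map (Int.castRingHom ℚ))⁄Qb).Point, P ≠ 0 ∧ p • P = 0 ∧ ∃ a : ℤ, τ • P = a • P) :
    ∃ P : ((W.map (Int.castRingHom ℚ))⁄Qb).Point, P ≠ 0 ∧ p • P = 0 ∧ xc P ∈ A := by
  by_contra hcon
  have hss : ∀ P : ((W.map (Int.castRingHom ℚ))⁄Qb).Point, P ≠ 0 → p • P = 0 →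
      1 < A.valuation (xc P) := by
    intro P hP0 hPp
    by_contra hle
    exact hcon ⟨P, hP0, hPp, (A.valuation_le_one_iff _).mp (not_lt.mp hle)⟩
  obtain ⟨τ, hτ, h⟩ := exists_inertia_no_eigenvector hΔ hp hp2 A hA hss
  obtain ⟨P, hP0, hPp, a, ha⟩ := heig τ hτ
  exact h P hP0 hPp a ha

/-- **W-SS, surjectivity form.**  Under the supersingular hypothesis there is `τ` in the inertia
group of `A` such that every `P ∈ E[p]` is of the form `τ • Q - Q` with `Q ∈ E[p]`. -/
theorem exists_inertia_sub_one_surjective (hΔ : W.Δ ≠ 0) {p : ℕ} (hp : p.Prime) (hp2 : p ≠ 2)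
    (A : ValuationSubring Qb) (hA : A.LiesOverPrime p)
    (hss : ∀ P : ((W.map (Int.castRingHom ℚ))⁄Qb).Point, P ≠ 0 → p • P = 0 →
      1 < A.valuation (xc P)) :
    ∃ τ ∈ A.inertiaSubgroupIn ℚ,
      ∀ x : Submodule.torsionBy ℤ ((W.map (Int.castRingHom ℚ))⁄Qb).Point ((p : ℕ) : ℤ),
        ∃ y : Submodule.torsionBy ℤ ((W.map (Int.castRingHom ℚ))⁄Qb).Point ((p : ℕ) : ℤ),
          τ • y - y = x := by
  have := isElliptic_baseChange W hΔ
  obtain ⟨τ, hτ, h⟩ := exists_inertia_sub_one_injective hΔ hp hp2 A hA hss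
  refine ⟨τ, hτ, ?_⟩
  have hodd : Odd p := hp.odd_of_ne_two hp2
  have hp3 : 3 ≤ p := by
    have := hp.two_le
    omega
  have hfin : Finite (Submodule.torsionBy ℤ ((W.map (Int.castRingHom ℚ))⁄Qb).Point ((p : ℕ) : ℤ)) :=
    (Fermat.Agent.S13.H891.T1_odd ((W.map (Int.castRingHom ℚ))⁄Qb) p hp3 hodd).2.1
  have hinj : Function.Injective
      (fun y : Submodule.torsionBy ℤ ((W.map (Int.castRingHom ℚ))⁄Qb).Point ((p : ℕ) : ℤ) =>
        τ • y - y) := by
    intro y z hyz
    have h1 : τ • (y - z) = y - z := by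
      have h2 : τ • y - y = τ • z - z := hyz
      rw [smul_sub]
      have h3 : τ • y - τ • z = (τ • y - y) - (τ • z - z) + (y - z) := by abel
      rw [h3, h2, sub_self, zero_add]
    have h4 : ((y - z : Submodule.torsionBy ℤ ((W.map (Int.castRingHom ℚ))⁄Qb).Point
        ((p : ℕ) : ℤ)) : ((W.map (Int.castRingHom ℚ))⁄Qb).Point) = 0 := by
      apply h _ (Fermat.Agent.S13.H891.nsmul_eq_zero_of_mem_torsionBy p (y - z))
      exact congrArg Subtype.val h1
    exact sub_eq_zero.mp (Subtype.ext h4)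
  exact Finite.surjective_of_injective hinj

/-- **W-SS, coinvariant form.**  Under the supersingular hypothesis every additive map on `E[p]`
that is invariant under the inertia group of `A` vanishes: `E[p]` has no nonzero inertia
coinvariants. -/
theorem eq_zero_of_inertia_invariant (hΔ : W.Δ ≠ 0) {p : ℕ} (hp : p.Prime) (hp2 : p ≠ 2)
    (A : ValuationSubring Qb) (hA : A.LiesOverPrime p)
    (hss : ∀ P : ((W.map (Int.castRingHom ℚ))⁄Qb).Point, P ≠ 0 → p • P = 0 →
      1 < A.valuation (xc P))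
    {M : Type*} [AddGroup M]
    (f : Submodule.torsionBy ℤ ((W.map (Int.castRingHom ℚ))⁄Qb).Point ((p : ℕ) : ℤ) →+ M)
    (hf : ∀ τ ∈ A.inertiaSubgroupIn ℚ,
      ∀ x : Submodule.torsionBy ℤ ((W.map (Int.castRingHom ℚ))⁄Qb).Point ((p : ℕ) : ℤ),
        f (τ • x) = f x)
    (x : Submodule.torsionBy ℤ ((W.map (Int.castRingHom ℚ))⁄Qb).Point ((p : ℕ) : ℤ)) :
    f x = 0 := by
  obtain ⟨τ, hτ, h⟩ := exists_inertia_sub_one_surjective hΔ hp hp2 A hA hss
  obtain ⟨y, rfl⟩ := h x
  rw [map_sub, hf τ hτ y, sub_self]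

end Fermat.Agent.Ribet.H187
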