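import Fermat.Agent.Ribet.H944.WallSpec
import Fermat.Agent.Ribet.H187.ELocMain

/-!
# RIBET / S40, leaf ELOC-ss in the shape of the wall board v2 (helper187)

Vocabulary of `Fermat.Agent.Ribet.H944.Wall` (`WallSpec.lean`): `CycloAt`, `ETorsion`,
`OrdinaryInertiaAt`.

* `exists_cycloAt` : every `σ ∈ G_ℚ` acts on `μ_p` as a `c`-th power;
* `not_ordinaryInertiaAt_of_ss` : **ELOC-ss**.  If all nonzero points of `E[p]` lie in the kernel
  of reduction at `A` (`1 < v (x P)`), then `¬ OrdinaryInertiaAt E p A`;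
* `exists_integral_point_of_ordinaryInertiaAt` : contrapositive, the entry point of ELOC-ord:
  `OrdinaryInertiaAt E p A` gives a nonzero `P ∈ E[p]` with `x P ∈ A`.

No good-reduction hypothesis is used.
-/

set_option autoImplicit false

open WeierstrassCurve WeierstrassCurve.Affine
open Fermat.Agent.S51.Five (xc)
open Fermat.Agent.Ribet.Spec (GQ)
open Fermat.Agent.Ribet.H944.Wall (CycloAt ETorsion OrdinaryInertiaAt)

namespace Fermat.Agent.Ribet.H187

local notation "Qb" => AlgebraicClosure ℚ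

/-- Every automorphism acts on the `p`-th roots of unity as a `c`-th power. -/
theorem exists_cycloAt (p : ℕ) (hp : 0 < p) (σ : GQ) : ∃ c : ℕ, CycloAt p σ c := by
  have : NeZero p := ⟨hp.ne'⟩
  have : NeZero ((p : ℕ) : Qb) := ⟨Nat.cast_ne_zero.mpr hp.ne'⟩
  obtain ⟨ζ, hζ⟩ := HasEnoughRootsOfUnity.exists_primitiveRoot Qb p
  have h1 : (σ ζ) ^ p = 1 := by rw [← map_pow, hζ.pow_eq_one, map_one]
  obtain ⟨c, -, hc⟩ := hζ.eq_pow_of_pow_eq_one h1
  refine ⟨c, fun ζ' hζ' => ?_⟩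
  obtain ⟨j, -, rfl⟩ := hζ.eq_pow_of_pow_eq_one hζ'
  rw [map_pow, ← hc, ← pow_mul, ← pow_mul, mul_comm]

/-- **ELOC-ss** (wall board v2).  If every nonzero point of `E[p]` lies in the kernel of reduction
at `A`, the inertia group at `A` does not act "ordinarily" on `E[p]`. -/
theorem not_ordinaryInertiaAt_of_ss {W : WeierstrassCurve ℤ} (hΔ : W.Δ ≠ 0) {p : ℕ}
    (hp : p.Prime) (hp2 : p ≠ 2) (A : ValuationSubring Qb) (hA : A.LiesOverPrime p)
    (hss : ∀ P : ((W.map (Int.castRingHom ℚ))⁄Qb).Point, P ≠ 0 → p • P = 0 →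
      1 < A.valuation (xc P)) :
    ¬ OrdinaryInertiaAt (W.map (Int.castRingHom ℚ)) p A := by
  intro hOrd
  have := isElliptic_baseChange W hΔ
  obtain ⟨τ, hτ, h⟩ := exists_inertia_no_eigenvector hΔ hp hp2 A hA hss
  obtain ⟨c, hc⟩ := exists_cycloAt p hp.pos τ
  have hodd : Odd p := hp.odd_of_ne_two hp2
  have hp3 : 3 ≤ p := by
    have := hp.two_le
    omega
  have hnt : Nontrivial (ETorsion (W.map (Int.castRingHom ℚ)) p) :=
    (Fermat.Agent.S13.H891.T1_odd ((W.map (Int.castRingHom ℚ))⁄Qb) p hp3 hodd).1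
  obtain ⟨x, hx0⟩ := exists_ne (0 : ETorsion (W.map (Int.castRingHom ℚ)) p)
  have hx0' : (x : ((W.map (Int.castRingHom ℚ))⁄Qb).Point) ≠ 0 := fun h0 => hx0 (Subtype.ext h0)
  have hxp : p • (x : ((W.map (Int.castRingHom ℚ))⁄Qb).Point) = 0 :=
    Fermat.Agent.S13.H891.nsmul_eq_zero_of_mem_torsionBy p x
  have hO := hOrd τ hτ c hc x
  by_cases hfix : τ • x = x
  · refine h x hx0' hxp 1 ?_
    rw [one_smul]
    exact congrArg Subtype.val hfix
  · set y : ETorsion (W.map (Int.castRingHom ℚ)) p := τ • x - x with hy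
    have hy0 : y ≠ 0 := fun h0 => hfix (sub_eq_zero.mp h0)
    have hy0' : (y : ((W.map (Int.castRingHom ℚ))⁄Qb).Point) ≠ 0 := fun h0 => hy0 (Subtype.ext h0)
    have hyp : p • (y : ((W.map (Int.castRingHom ℚ))⁄Qb).Point) = 0 :=
      Fermat.Agent.S13.H891.nsmul_eq_zero_of_mem_torsionBy p y
    have hτy : τ • y = c • y := by
      rw [hy, smul_sub, nsmul_sub]
      have h2 : τ • τ • x = (c + 1) • τ • x - c • x := eq_sub_of_add_eq hO
      rw [h2, add_nsmul, one_nsmul]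
      abel
    refine h y hy0' hyp (c : ℤ) ?_
    rw [natCast_zsmul]
    have := congrArg Subtype.val hτy
    exact this

/-- Contrapositive of ELOC-ss, the entry point of ELOC-ord: an "ordinary" inertia action on `E[p]`
forces a nonzero point of `E[p]` with `A`-integral `x`-coordinate. -/
theorem exists_integral_point_of_ordinaryInertiaAt {W : WeierstrassCurve ℤ} (hΔ : W.Δ ≠ 0)
    {p : ℕ} (hp : p.Prime) (hp2 : p ≠ 2) (A : ValuationSubring Qb) (hA : A.LiesOverPrime p)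
    (hOrd : OrdinaryInertiaAt (W.map (Int.castRingHom ℚ)) p A) :
    ∃ P : ((W.map (Int.castRingHom ℚ))⁄Qb).Point, P ≠ 0 ∧ p • P = 0 ∧ xc P ∈ A := by
  by_contra hcon
  refine not_ordinaryInertiaAt_of_ss hΔ hp hp2 A hA ?_ hOrd
  intro P hP0 hPp
  by_contra hle
  exact hcon ⟨P, hP0, hPp, (A.valuation_le_one_iff _).mp (not_lt.mp hle)⟩

end Fermat.Agent.Ribet.H187
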